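import Fermat.Agent.Corollaries.CFTP.Defs
import Fermat.Agent.Minkowski.Trivial

set_option autoImplicit false

/-!
# Unramified characters of a quadratic field: conjugation is inversion

`k/ℚ` quadratic, `ψ : G_k → ℤ/3` continuous and unramified everywhere: `ψ(s g s⁻¹) = ψ(g)⁻¹` for
`s ∉ G_k` (`conj_eq_inv`). The character `φ(g) = ψ(g) ψ(s g s⁻¹)` of `G_k` is invariant under
`G_ℚ`; `g ↦ φ(g²)²` is an everywhere unramified character of `G_ℚ`, trivial by Minkowski's theorem.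
-/

namespace Fermat.Agent.Cor.Scholz

open IsDedekindDomain NumberField
open Fermat.Agent.Frob Fermat.Agent.FrobDensity Fermat.Agent.Minkowski
open Fermat.Agent.LT.Tower.Fr
open Fermat.Agent.Cor.Diff (GK FrobAt)
open Fermat.Agent.Cor.CFTP
open scoped Pointwise

section Group

variable {G : Type*} [Group G] {H : Subgroup G} {A : Type*} [CommGroup A]

/-- An invariant homomorphism on a subgroup of index two extends, up to its square. -/
theorem exists_extend_sq (hH : H.index = 2) (φ : H →* A)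
    (hφ : ∀ (x : G) (h : H) (hx : x * h.1 * x⁻¹ ∈ H), φ ⟨x * h.1 * x⁻¹, hx⟩ = φ h) :
    ∃ Ψ : G →* A, (∀ (g : G) (hg : g ^ 2 ∈ H), Ψ g = φ ⟨g ^ 2, hg⟩) ∧
      ∀ h : H, Ψ h = φ h ^ 2 := by
  have hsq : ∀ g : G, g ^ 2 ∈ H := fun g => Subgroup.sq_mem_of_index_two hH g
  have hn : H.Normal := Subgroup.normal_of_index_eq_two hH
  have hmul : ∀ a b : G, a ∉ H → b ∉ H → a * b ∈ H := fun a b ha hb =>
    (Subgroup.mul_mem_iff_of_index_two hH).mpr (iff_of_false ha hb)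
  have key : ∀ g h : G, φ ⟨(g * h) ^ 2, hsq _⟩ = φ ⟨g ^ 2, hsq g⟩ * φ ⟨h ^ 2, hsq h⟩ := by
    intro g h
    by_cases hg : g ∈ H
    · -- `(g h)² = g (h g h⁻¹) h²`
      have h1 : h * g * h⁻¹ ∈ H := hn.conj_mem g hg h
      have e : (⟨(g * h) ^ 2, hsq _⟩ : H) = ⟨g, hg⟩ * ⟨h * g * h⁻¹, h1⟩ * ⟨h ^ 2, hsq h⟩ := by
        apply Subtype.ext
        change (g * h) ^ 2 = g * (h * g * h⁻¹) * h ^ 2
        rw [sq, sq]
        group
      have e2 : (⟨g ^ 2, hsq g⟩ : H) = ⟨g, hg⟩ * ⟨g, hg⟩ := Subtype.ext (sq g)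
      have h2 := hφ h ⟨g, hg⟩ h1
      rw [e, map_mul, map_mul, h2, e2, map_mul]
    · by_cases hh : h ∈ H
      · -- `(g h)² = (g h g⁻¹) g² h`
        have h1 : g * h * g⁻¹ ∈ H := hn.conj_mem h hh g
        have e : (⟨(g * h) ^ 2, hsq _⟩ : H) = ⟨g * h * g⁻¹, h1⟩ * ⟨g ^ 2, hsq g⟩ * ⟨h, hh⟩ := by
          apply Subtype.ext
          change (g * h) ^ 2 = (g * h * g⁻¹) * g ^ 2 * h
          rw [sq, sq]
          group
        have e2 : (⟨h ^ 2, hsq h⟩ : H) = ⟨h, hh⟩ * ⟨h, hh⟩ := Subtype.ext (sq h)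
        have h2 := hφ g ⟨h, hh⟩ h1
        rw [e, map_mul, map_mul, h2, e2, map_mul]
        exact (mul_comm (φ ⟨h, hh⟩) (φ ⟨g ^ 2, hsq g⟩)) ▸ mul_assoc _ _ _
      · have hgh : g * h ∈ H := hmul g h hg hh
        have hhg : h * g ∈ H := hmul h g hh hg
        have hgi : g⁻¹ * h ∈ H := hmul _ _ (fun h' => hg (inv_mem_iff.mp h')) hh
        have e1 : (⟨g * h, hgh⟩ : H) = ⟨g ^ 2, hsq g⟩ * ⟨g⁻¹ * h, hgi⟩ := by
          apply Subtype.ext
          change g * h = g ^ 2 * (g⁻¹ * h)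
          rw [sq]
          group
        have e2 : (⟨h ^ 2, hsq h⟩ : H) = ⟨h * g, hhg⟩ * ⟨g⁻¹ * h, hgi⟩ := by
          apply Subtype.ext
          change h ^ 2 = h * g * (g⁻¹ * h)
          rw [sq]
          group
        have e3 : (⟨(g * h) ^ 2, hsq _⟩ : H) = ⟨g * h, hgh⟩ * ⟨g * h, hgh⟩ := Subtype.ext (sq _)
        have hc : h * (g * h) * h⁻¹ ∈ H := hn.conj_mem _ hgh h
        have h4 : φ ⟨h * g, hhg⟩ = φ ⟨g * h, hgh⟩ := by
          rw [← hφ h ⟨g * h, hgh⟩ hc]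
          congr 1
          apply Subtype.ext
          change h * g = h * (g * h) * h⁻¹
          group
        have h5 : φ ⟨g * h, hgh⟩ = φ ⟨g ^ 2, hsq g⟩ * φ ⟨g⁻¹ * h, hgi⟩ := by rw [e1, map_mul]
        rw [e3, map_mul, e2, map_mul, h4]
        rw [mul_left_comm, ← h5]
  refine ⟨{ toFun := fun g => φ ⟨g ^ 2, hsq g⟩
            map_one' := by
              have : (⟨(1 : G) ^ 2, hsq 1⟩ : H) = 1 := Subtype.ext (one_pow 2)
              rw [this, map_one]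
            map_mul' := key }, fun g hg => rfl, fun h => ?_⟩
  change φ ⟨(h : G) ^ 2, hsq h⟩ = φ h ^ 2
  rw [← map_pow]
  rfl

end Group

/-- `G_k` has index two for a quadratic field. -/
theorem index_GK {k : Type*} [Field k] [NumberField k] (h2 : Module.finrank ℚ k = 2)
    (i : k →+* AlgebraicClosure ℚ) : (GK i).index = 2 := by
  let L : IntermediateField ℚ (AlgebraicClosure ℚ) := i.toRatAlgHom.fieldRange
  have e : GK i = L.fixingSubgroup := by
    ext g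
    rw [IntermediateField.mem_fixingSubgroup_iff]
    constructor
    · rintro hg _ ⟨x, rfl⟩
      exact hg x
    · intro hg x
      exact hg _ ⟨x, rfl⟩
  rw [e]
  have h3 : Module.finrank ℚ L = 2 := by
    rw [← h2]
    exact ((AlgEquiv.ofInjectiveField i.toRatAlgHom).toLinearEquiv.finrank_eq).symm
  have hfd : FiniteDimensional ℚ L := FiniteDimensional.of_finrank_pos (by rw [h3]; norm_num)
  rw [← IntermediateField.finrank_eq_fixingSubgroup_index, h3]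

/-- **Conjugation is inversion on unramified characters of a quadratic field.** -/
theorem conj_eq_inv {k : Type} [Field k] [NumberField k] (h2 : Module.finrank ℚ k = 2)
    {i : k →+* AlgebraicClosure ℚ} {ψ : GK i →* C 3} (lψ : Lev ψ)
    (hu : ∀ v A, Over i A v → ∀ g : GK i, g.1 ∈ A.inertiaSubgroupIn ℚ → ψ g = 1)
    {s : GQ} (hs : s ∉ GK i) (g : GK i) (hsg : s * g.1 * s⁻¹ ∈ GK i) :
    ψ ⟨s * g.1 * s⁻¹, hsg⟩ = (ψ g)⁻¹ := by
  have h3 : Fact (Nat.Prime 3) := ⟨Nat.prime_three⟩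
  have hidx := index_GK h2 i
  have hn : (GK i).Normal := Subgroup.normal_of_index_eq_two hidx
  have hmul : ∀ a b : GQ, a ∉ GK i → b ∉ GK i → a * b ∈ GK i := fun a b ha hb =>
    (Subgroup.mul_mem_iff_of_index_two hidx).mpr (iff_of_false ha hb)
  let cs : GK i →* GK i :=
    { toFun := fun h => ⟨s * h.1 * s⁻¹, hn.conj_mem _ h.2 s⟩
      map_one' := Subtype.ext (by simp)
      map_mul' := fun a b => Subtype.ext (by simp [mul_assoc]) }
  have hcs : ∀ h : GK i, ((cs h : GK i) : GQ) = s * h.1 * s⁻¹ := fun h => rfl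
  let φ : GK i →* C 3 := ψ * ψ.comp cs
  have hφ : ∀ h : GK i, φ h = ψ h * ψ (cs h) := fun h => rfl
  have hinner : ∀ (y h : GK i) (hy : y.1 * h.1 * y.1⁻¹ ∈ GK i),
      ψ ⟨y.1 * h.1 * y.1⁻¹, hy⟩ = ψ h := by
    intro y h hy
    have e : (⟨y.1 * h.1 * y.1⁻¹, hy⟩ : GK i) = y * h * y⁻¹ := rfl
    rw [e, map_mul, map_mul, map_inv, mul_comm, ← mul_assoc, inv_mul_cancel, one_mul]
  obtain ⟨Ψ, hΨ1, hΨ2⟩ := exists_extend_sq hidx φ (fun x h hx => by
    rw [hφ, hφ]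
    by_cases hxH : x ∈ GK i
    · rw [hinner ⟨x, hxH⟩ h hx]
      congr 1
      have e : cs ⟨x * h.1 * x⁻¹, hx⟩ = cs ⟨x, hxH⟩ * cs h * (cs ⟨x, hxH⟩)⁻¹ := by
        rw [← map_mul, ← map_inv, ← map_mul]
        rfl
      rw [e, map_mul, map_mul, map_inv, mul_comm, ← mul_assoc, inv_mul_cancel, one_mul]
    · have hs' : s⁻¹ ∉ GK i := fun h' => hs (inv_mem_iff.mp h')
      have hy : s⁻¹ * x ∈ GK i := hmul _ _ hs' hxH
      have hz : s * x ∈ GK i := hmul _ _ hs hxH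
      have h4 : ψ ⟨x * h.1 * x⁻¹, hx⟩ = ψ (cs h) := by
        have e : (⟨x * h.1 * x⁻¹, hx⟩ : GK i) =
            cs (⟨s⁻¹ * x, hy⟩ * h * (⟨s⁻¹ * x, hy⟩ : GK i)⁻¹) := by
          apply Subtype.ext
          rw [hcs]
          change x * h.1 * x⁻¹ = s * (s⁻¹ * x * h.1 * (s⁻¹ * x)⁻¹) * s⁻¹
          group
        rw [e, map_mul, map_mul, map_inv, map_mul, map_mul, map_inv, mul_comm, ← mul_assoc,
          inv_mul_cancel, one_mul]
      have h5 : ψ (cs ⟨x * h.1 * x⁻¹, hx⟩) = ψ h := by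
        have hzz : (s * x) * h.1 * (s * x)⁻¹ ∈ GK i := hn.conj_mem _ h.2 _
        have e : cs ⟨x * h.1 * x⁻¹, hx⟩ = ⟨(s * x) * h.1 * (s * x)⁻¹, hzz⟩ := by
          apply Subtype.ext
          rw [hcs]
          change s * (x * h.1 * x⁻¹) * s⁻¹ = (s * x) * h.1 * (s * x)⁻¹
          group
        rw [e]
        exact hinner ⟨s * x, hz⟩ h hzz
      rw [h4, h5, mul_comm])
  -- the kernel of `Ψ` is open
  obtain ⟨L₀, hL₀, hψ⟩ := lψ
  let L₁ : IntermediateField ℚ (AlgebraicClosure ℚ) := i.toRatAlgHom.fieldRange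
  have hL₁ : FiniteDimensional ℚ L₁ :=
    LinearEquiv.finiteDimensional
      (AlgEquiv.ofInjectiveField i.toRatAlgHom).toLinearEquiv
  let L₂ : IntermediateField ℚ (AlgebraicClosure ℚ) :=
    L₀.map (s⁻¹ : GQ).toAlgHom
  have hL₂ : FiniteDimensional ℚ L₂ :=
    (L₀.equivMap (s⁻¹ : GQ).toAlgHom).toLinearEquiv.finiteDimensional
  let F := L₁ ⊔ L₀ ⊔ L₂
  have hF : FiniteDimensional ℚ F := by
    have := IntermediateField.finiteDimensional_sup L₁ L₀
    exact IntermediateField.finiteDimensional_sup _ _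
  have hker : F.fixingSubgroup ≤ Ψ.ker := by
    intro x hx
    rw [IntermediateField.mem_fixingSubgroup_iff] at hx
    have hxH : x ∈ GK i := fun y => hx _ ((le_sup_left.trans le_sup_left : L₁ ≤ F) ⟨y, rfl⟩)
    have h4 : ψ ⟨x, hxH⟩ = 1 := hψ _ fun y hy =>
      hx y ((le_sup_right.trans le_sup_left : L₀ ≤ F) hy)
    have h5 : ψ (cs ⟨x, hxH⟩) = 1 := by
      apply hψ
      intro y hy
      have h6 := hx _ ((le_sup_right : L₂ ≤ F) ⟨y, hy, rfl⟩)
      change s (x (s⁻¹ y)) = y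
      have h7 : x (s⁻¹ y) = s⁻¹ y := h6
      rw [h7]
      exact s.apply_symm_apply y
    rw [MonoidHom.mem_ker, hΨ2 ⟨x, hxH⟩, hφ, h4, h5, mul_one, one_pow]
  have hopen : IsOpen (Ψ.ker : Set GQ) :=
    Subgroup.isOpen_mono hker (IntermediateField.fixingSubgroup_isOpen F)
  -- `Ψ` is unramified
  have hinert : ∀ ℓ : ℕ, ℓ.Prime → ∀ A : ValuationSubring (AlgebraicClosure ℚ),
      A.LiesOverPrime ℓ → ∀ σ : GK i, σ.1 ∈ A.inertiaSubgroupIn ℚ → ψ σ = 1 := by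
    intro ℓ hℓ A hA σ hσ
    obtain ⟨v, hv⟩ := exists_over_of_liesOver i hℓ hA
    exact hu v A hv σ hσ
  have hΨ : ∀ x, Ψ x = 1 := hom_eq_one Ψ hopen (fun ℓ hℓ A hA σ hσ => by
    have h4 : σ ^ 2 ∈ GK i := Subgroup.sq_mem_of_index_two hidx σ
    have h5 : s * σ ^ 2 * s⁻¹ ∈ (s • A).inertiaSubgroupIn ℚ := by
      have h := Fermat.Agent.CFT.SKummer.conj_mem_inertia (A := s • A) (g := s⁻¹) (σ := σ ^ 2)
        (by rw [inv_smul_smul]; exact pow_mem hσ 2)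
      rwa [inv_inv] at h
    rw [hΨ1 σ h4, hφ, hinert ℓ hℓ A hA _ (pow_mem hσ 2),
      hinert ℓ hℓ (s • A) (liesOverPrime_smul hA) (cs ⟨σ ^ 2, h4⟩) h5, mul_one])
  have h4 : φ g ^ 2 = 1 := by rw [← hΨ2, hΨ]
  have h5 : φ g = 1 := by
    have h6 := C.pow_p (p := 3) (φ g)
    rwa [pow_succ, h4, one_mul] at h6
  rw [hφ] at h5
  exact eq_inv_of_mul_eq_one_right h5

end Fermat.Agent.Cor.Scholz
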