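import Fermat.Agent.Corollaries.CFTP.LocAll

set_option autoImplicit false

/-!
# Radicals of unramified Kummer extensions are `p`-th powers of ideals

`L/K` Galois of degree prime to `p`, `ζ_p ∈ L`, `b ∈ Kˣ`, `β ^ p = b`, `L(β)/L` unramified at all
finite places: then `p ∣ ord_w b` for all places `w` of `K` (`dvd_ord_of_unramified`).
-/

namespace Fermat.Agent.Cor.Scholz

open IsDedekindDomain NumberField
open Fermat.Agent.Frob Fermat.Agent.FrobDensity Fermat.Agent.Minkowski
open Fermat.Agent.LT.Tower.Fr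
open Fermat.Agent.Cor.Diff (GK FrobAt)
open Fermat.Agent.Cor.CFTP
open Fermat.Agent.CFT.SUnits (ord ord_pow ord_one)
open Fermat.Agent.CFT.Places (conj conj_one conj_mul exists_below_eq)
open Fermat.Agent.LT.NV (edeg fdeg card_stab)
open Fermat.Agent.LT.Psi (up coe_up ord_up)

/-- The radical of an unramified Kummer extension has orders divisible by `p`. -/
theorem dvd_ord_of_fix {p : ℕ} [hp : Fact p.Prime] {L : Type} [Field L] [NumberField L] {ζ : L}
    (hζ : IsPrimitiveRoot ζ p) {j : L →+* AlgebraicClosure ℚ} {b : Lˣ} {β : AlgebraicClosure ℚ}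
    (hβ : β ^ p = j b)
    (hu : ∀ V A, Over j A V → ∀ g : GK j, g.1 ∈ A.inertiaSubgroupIn ℚ → g.1 β = β)
    (V : HeightOneSpectrum (𝓞 L)) : (p : ℤ) ∣ ord V b := by
  by_cases hall : ∀ g : GK j, g.1 β = β
  · obtain ⟨c, hc⟩ := ConvKum.mem_range_of_fixed j hall
    have hc0 : c ≠ 0 := by
      rintro rfl
      rw [map_zero] at hc
      rw [← hc, zero_pow hp.out.ne_zero] at hβ
      exact b.ne_zero (j.injective (by rw [← hβ, map_zero]))
    have h1 : Units.mk0 c hc0 ^ p = b := by
      apply Units.ext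
      apply j.injective
      rw [Units.val_pow_eq_pow_val, Units.val_mk0, map_pow, hc, hβ]
    rw [← h1, ord_pow]
    exact dvd_mul_right _ _
  · push Not at hall
    obtain ⟨g', hg'⟩ := hall
    obtain ⟨M, _, _, _, hgal, jM, r, ζ', σ, hj, hjr, hr, hζ', hσ, hjσ, hτ⟩ :=
      LocAll.exists_ext hp.out hζ hβ hg'
    have hjx : ∀ x : L, jM (algebraMap L M x) = j x := fun x => RingHom.congr_fun hj x
    obtain ⟨W, rfl⟩ := exists_below_eq M V
    obtain ⟨q, A, -, -, hW⟩ := exists_over jM W
    have hV : Over j A (W.under (𝓞 L)) := by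
      have h1 := hW.under (F := L)
      rwa [hj] at h1
    have he : edeg L W = 1 := by
      apply edeg_eq_one_of_inertia hW
      intro τ hτI hτL
      have hτL' : ∀ x : L, τ (j x) = j x := fun x => by
        have := hτL x
        rwa [hjx] at this
      exact hτ τ hτL' (hu _ A hV ⟨τ, hτL'⟩ hτI)
    have hr0 : r ≠ 0 := by
      rintro rfl
      rw [zero_pow hp.out.ne_zero] at hr
      exact (map_ne_zero (algebraMap L M)).mpr b.ne_zero hr.symm
    have h1 : up M b = Units.mk0 r hr0 ^ p := by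
      apply Units.ext
      rw [coe_up, Units.val_pow_eq_pow_val, Units.val_mk0, hr]
    have h2 := ord_up (L := M) W b
    have he' : (W.under (𝓞 L)).asIdeal.ramificationIdx' W.asIdeal = 1 := he
    rw [h1, ord_pow, he', Nat.cast_one, one_mul] at h2
    rw [← h2]
    exact dvd_mul_right _ _

/-- The same for a radical in a subfield `K` with `L/K` of degree two, `p` odd. -/
theorem dvd_ord_of_unramified {p : ℕ} [hp : Fact p.Prime] (hp2 : p ≠ 2) {K L : Type} [Field K]
    [NumberField K] [Field L] [NumberField L] [Algebra K L] [IsGalois K L]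
    (h2 : Module.finrank K L = 2) {ζ : L} (hζ : IsPrimitiveRoot ζ p)
    {j : L →+* AlgebraicClosure ℚ} {b : Kˣ} {β : AlgebraicClosure ℚ}
    (hβ : β ^ p = j (algebraMap K L b))
    (hu : ∀ V A, Over j A V → ∀ g : GK j, g.1 ∈ A.inertiaSubgroupIn ℚ → g.1 β = β)
    (w : HeightOneSpectrum (𝓞 K)) : (p : ℤ) ∣ ord w b := by
  obtain ⟨V, rfl⟩ := exists_below_eq L w
  have h1 := dvd_ord_of_fix (b := up L b) hζ (by rw [coe_up]; exact hβ) hu V
  rw [ord_up] at h1
  have he : edeg K V ≤ 2 := by
    have h3 := card_stab (K := K) V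
    have h4 : Nat.card {σ : L ≃ₐ[K] L // conj σ V = V} ≤ Nat.card (L ≃ₐ[K] L) :=
      Nat.card_le_card_of_injective Subtype.val Subtype.val_injective
    rw [h3, IsGalois.card_aut_eq_finrank, h2] at h4
    have h5 : fdeg K V ≠ 0 := by
      intro h0
      rw [h0, mul_zero] at h3
      have : Nonempty {σ : L ≃ₐ[K] L // conj σ V = V} := ⟨⟨1, conj_one V⟩⟩
      exact Nat.card_pos.ne' h3
    nlinarith [Nat.pos_of_ne_zero h5]
  have he0 : edeg K V ≠ 0 := Fermat.Agent.LT.NV.edeg_ne_zero V
  have hp3 : 2 < p := lt_of_le_of_ne hp.out.two_le (Ne.symm hp2)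
  have hcop : IsCoprime (p : ℤ) (edeg K V : ℤ) := by
    rw [Nat.isCoprime_iff_coprime, Nat.Prime.coprime_iff_not_dvd hp.out]
    intro h
    have := Nat.le_of_dvd (Nat.pos_of_ne_zero he0) h
    omega
  exact hcop.dvd_of_dvd_mul_left h1

end Fermat.Agent.Cor.Scholz
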