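import Mathlib
import Fermat.Agent.CFT.AbCount

/-!
# Homomorphisms of a finite abelian group to a group of prime order

`card_hom`: `#Hom(G, ℤ/p) = #G[p]`.
-/

set_option autoImplicit false

namespace Fermat.Agent.Cor.Scholz

open Fermat.Agent.CFT

section Quot

variable {G : Type*} [CommGroup G] (p : ℕ)

/-- homomorphisms to `ℤ / p` factor through `G / G ^ p` -/
def quotEquiv : (G →* Multiplicative (ZMod p)) ≃
    (G ⧸ (powMonoidHom p : G →* G).range →* Multiplicative (ZMod p)) where
  toFun f := QuotientGroup.lift _ f (by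
    rintro _ ⟨x, rfl⟩
    rw [MonoidHom.mem_ker, powMonoidHom_apply, map_pow]
    apply Multiplicative.toAdd.injective
    rw [toAdd_pow, toAdd_one, nsmul_eq_mul, CharP.cast_eq_zero, zero_mul])
  invFun g := g.comp (QuotientGroup.mk' _)
  left_inv f := MonoidHom.ext fun x => rfl
  right_inv g := MonoidHom.ext fun x => by
    obtain ⟨x, rfl⟩ := QuotientGroup.mk_surjective x
    rfl

lemma nsmul_quot (x : Additive (G ⧸ (powMonoidHom p : G →* G).range)) : p • x = 0 := by
  obtain ⟨y, hy⟩ := QuotientGroup.mk_surjective x.toMul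
  have h1 : (x.toMul) ^ p = 1 := by
    rw [← hy, ← QuotientGroup.mk_pow, QuotientGroup.eq_one_iff]
    exact ⟨y, rfl⟩
  exact congrArg Additive.ofMul h1

end Quot

/-- the dual of a finite vector space over `ℤ / p` -/
theorem card_addHom {A : Type*} [AddCommGroup A] [Finite A] (p : ℕ) [hp : Fact p.Prime]
    [Module (ZMod p) A] : Nat.card (A →+ ZMod p) = Nat.card A := by
  have hf : Module.Finite (ZMod p) A := inferInstance
  have h4 := @Module.natCard_eq_pow_finrank (ZMod p) A _ _ _ hf
  have h5 := @Module.natCard_eq_pow_finrank (ZMod p) (Module.Dual (ZMod p) A) _ _ _ inferInstance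
  rw [Nat.card_congr (AddMonoidHom.toZModLinearMapEquiv p).toEquiv, h4, ← Subspace.dual_finrank_eq]
  exact h5

/-- **`#Hom(G, ℤ/p) = #G[p]`** for a finite abelian group `G`. -/
theorem card_hom {G : Type*} [CommGroup G] [Finite G] (p : ℕ) [hp : Fact p.Prime] :
    Nat.card (G →* Multiplicative (ZMod p)) = Nat.card {c : G // c ^ p = 1} := by
  have h1 : Nat.card {c : G // c ^ p = 1} = (powMonoidHom p : G →* G).range.index :=
    (AbCount.index_range_pow_of_finite p).symm
  rw [h1, Nat.card_congr (quotEquiv p), Subgroup.index, Nat.card_congr MonoidHom.toAdditiveLeft]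
  let _ : Module (ZMod p) (Additive (G ⧸ (powMonoidHom p : G →* G).range)) :=
    AddCommGroup.zmodModule (nsmul_quot p)
  exact card_addHom p

end Fermat.Agent.Cor.Scholz
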