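import Fermat.Agent.Corollaries.Scholz.Sel

/-!
# The index of the cubes in the units of a quadratic field
-/

set_option autoImplicit false

namespace Fermat.Agent.Cor.Scholz

open NumberField IsDedekindDomain Fermat.Agent.CFT Fermat.Agent.CFT.SUnits

variable {K : Type*} [Field K] [NumberField K]

/-- `[E : E^n] = n^r · #μ_n(K)`. -/
theorem index_units {n : ℕ} (hn : n ≠ 0) : ((powMonoidHom n : (𝓞 K)ˣ →* (𝓞 K)ˣ).range).index =
    n ^ Units.rank K * Nat.card (rootsOfUnity n K) := by
  rw [AbCount.index_range_pow_congr unitsEquiv, index_pow_sunits _ hn, Finset.card_empty, add_zero]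

/-- no primitive cube root of unity -/
lemma card_rootsOfUnity_three (h : ∀ z : K, ¬ IsPrimitiveRoot z 3) :
    Nat.card (rootsOfUnity 3 K) = 1 := by
  rw [Nat.card_eq_one_iff_exists]
  refine ⟨1, fun x => ?_⟩
  have hx : ((x : Kˣ) : K) ^ 3 = 1 := by
    have := x.2
    rw [mem_rootsOfUnity] at this
    rw [← Units.val_pow_eq_pow_val, this, Units.val_one]
  by_contra hne
  refine h ((x : Kˣ) : K) ?_
  have h1 : orderOf ((x : Kˣ) : K) = 3 := by
    rcases (Nat.dvd_prime Nat.prime_three).mp (orderOf_dvd_of_pow_eq_one hx) with h2 | h2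
    · exfalso
      apply hne
      rw [orderOf_eq_one_iff] at h2
      exact Subtype.ext (Units.ext h2)
    · exact h2
  have h2 := IsPrimitiveRoot.orderOf ((x : Kˣ) : K)
  rwa [h1] at h2

/-- **Real quadratic fields**: `[E : E³] = 3`. -/
theorem index_cubes_real (h2 : Module.finrank ℚ K = 2) (w : InfinitePlace K) (hw : w.IsReal) :
    ((powMonoidHom 3 : (𝓞 K)ˣ →* (𝓞 K)ˣ).range).index = 3 := by
  have h1 := InfinitePlace.card_add_two_mul_card_eq_rank K
  have h3 := InfinitePlace.card_eq_nrRealPlaces_add_nrComplexPlaces K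
  have h4 := rank_add_one_eq (K := K)
  have h5 : 0 < InfinitePlace.nrRealPlaces K := by
    rw [Nat.pos_iff_ne_zero, Ne, nrRealPlaces_eq_zero_iff]
    exact fun h => (InfinitePlace.not_isReal_iff_isComplex.mpr (h.isComplex w)) hw
  have hr : Units.rank K = 1 := by omega
  rw [index_units (by norm_num), hr, card_rootsOfUnity_three]
  · norm_num
  · intro z hz
    have h6 := nrRealPlaces_eq_zero (by norm_num) hz
    omega

/-- **Imaginary quadratic fields** different from `ℚ(√-3)`: `E = E³`. -/
theorem index_cubes_imaginary [IsTotallyComplex K] (h2 : Module.finrank ℚ K = 2)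
    (h : ∀ z : K, ¬ IsPrimitiveRoot z 3) :
    ((powMonoidHom 3 : (𝓞 K)ˣ →* (𝓞 K)ˣ).range).index = 1 := by
  have h1 := InfinitePlace.card_add_two_mul_card_eq_rank K
  have h3 := InfinitePlace.card_eq_nrRealPlaces_add_nrComplexPlaces K
  have h4 := rank_add_one_eq (K := K)
  have h5 : InfinitePlace.nrRealPlaces K = 0 := nrRealPlaces_eq_zero_iff.mpr inferInstance
  have hr : Units.rank K = 0 := by omega
  rw [index_units (by norm_num), hr, card_rootsOfUnity_three h]
  norm_num

end Fermat.Agent.Cor.Scholz
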