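import Fermat.Agent.Corollaries.Scholz.Quad
import Fermat.Agent.Corollaries.Scholz.Units

set_option autoImplicit false

/-!
# The reflection theorem of Scholz (1932)

`k₁ = ℚ(√d)`, `k₂ = ℚ(√-3d)`, `d > 0` not a square:
`#Cl(k₁)[3] ≤ #Cl(k₂)[3] ≤ 3 · #Cl(k₁)[3]` (`scholz`): the `3`-ranks `r`, `s` of the class groups
satisfy `r ≤ s ≤ r + 1`.
-/

namespace Fermat.Agent.Cor.Scholz

open IsDedekindDomain NumberField
open Fermat.Agent.Cor.Diff (GK)
open Fermat.Agent.Cor.CFTP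

/-- A quadratic field containing `√d`, `d > 0`, has a real place. -/
theorem exists_isReal {K : Type*} [Field K] [NumberField K] (h2 : Module.finrank ℚ K = 2) {d : ℤ}
    (hd : 0 < d) (hsq : ¬ IsSquare d) {x : K} (hx : x ^ 2 = (d : K)) :
    ∃ w : InfinitePlace K, w.IsReal := by
  obtain ⟨φ⟩ : Nonempty (K →+* ℂ) := inferInstance
  refine ⟨InfinitePlace.mk φ, InfinitePlace.isReal_mk_iff.mpr ?_⟩
  have h1 : φ x ^ 2 = (d : ℂ) := by rw [← map_pow, hx, map_intCast]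
  have h2' : ((Real.sqrt d : ℝ) : ℂ) ^ 2 = (d : ℂ) := by
    rw [← Complex.ofReal_pow, Real.sq_sqrt (by exact_mod_cast hd.le)]
    simp
  have h3 : (starRingEnd ℂ) (φ x) = φ x := by
    rcases sq_eq_sq_iff_eq_or_eq_neg.mp (h1.trans h2'.symm) with h | h
    · rw [h, Complex.conj_ofReal]
    · rw [h, map_neg, Complex.conj_ofReal]
  have h4 : (((starRingEnd ℂ).comp φ).toRatAlgHom) = φ.toRatAlgHom := by
    apply AlgHom.ext_of_adjoin_eq_top (adjoin_eq_top h2 (ne_ratCast hsq hx))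
    rintro _ ⟨⟩
    exact h3
  ext y
  exact AlgHom.congr_fun h4 y

/-- A field containing `√a`, `a < 0`, is totally complex. -/
theorem isTotallyComplex_of_neg {K : Type*} [Field K] [NumberField K] {a : ℤ} (ha : a < 0) {x : K}
    (hx : x ^ 2 = (a : K)) : IsTotallyComplex K := by
  refine ⟨fun w => ?_⟩
  by_contra hw
  rw [InfinitePlace.not_isComplex_iff_isReal] at hw
  have h1 : (InfinitePlace.embedding_of_isReal hw x) ^ 2 = (a : ℝ) := by
    rw [← map_pow, hx, map_intCast]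
  have h2 : (a : ℝ) < 0 := by exact_mod_cast ha
  rw [← h1] at h2
  exact absurd (sq_nonneg _) (not_le.mpr h2)

/-- **Scholz's reflection theorem** (Spiegelungssatz, 1932): for `k₁ = ℚ(√d)`, `k₂ = ℚ(√-3d)`,
`d > 0` not a square: `#Cl(k₁)[3] ≤ #Cl(k₂)[3] ≤ 3 · #Cl(k₁)[3]`. -/
theorem scholz {K₁ K₂ : Type} [Field K₁] [NumberField K₁] [Field K₂] [NumberField K₂]
    (h₁ : Module.finrank ℚ K₁ = 2) (h₂ : Module.finrank ℚ K₂ = 2) {d : ℤ} (hd : 0 < d)
    (hsq : ¬ IsSquare d) {x₁ : K₁} (hx₁ : x₁ ^ 2 = (d : K₁)) {x₂ : K₂}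
    (hx₂ : x₂ ^ 2 = -3 * (d : K₂)) :
    Nat.card {c : ClassGroup (𝓞 K₁) // c ^ 3 = 1} ≤ Nat.card {c : ClassGroup (𝓞 K₂) // c ^ 3 = 1} ∧
    Nat.card {c : ClassGroup (𝓞 K₂) // c ^ 3 = 1} ≤
      3 * Nat.card {c : ClassGroup (𝓞 K₁) // c ^ 3 = 1} := by
  have hneg : -3 * d < 0 := by omega
  have hsq' : ¬ IsSquare (-3 * d) := by
    rintro ⟨r, hr⟩
    have : 0 ≤ r * r := mul_self_nonneg r
    omega
  obtain ⟨i₁, -⟩ : ∃ i₁ : K₁ →+* AlgebraicClosure ℚ, True :=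
    ⟨Classical.choice inferInstance, trivial⟩
  obtain ⟨i₂, -⟩ : ∃ i₂ : K₂ →+* AlgebraicClosure ℚ, True :=
    ⟨Classical.choice inferInstance, trivial⟩
  have M := mirror_of h₁ h₂ hd.ne' hsq hsq' hx₁ hx₂ i₁ i₂
  have hcomp : IsTotallyComplex K₂ := isTotallyComplex_of_neg hneg (x := x₂) (by
    rw [hx₂]
    push_cast
    rfl)
  obtain ⟨w, hw⟩ := exists_isReal h₁ hd hsq hx₁
  constructor
  · have h := M.card_le h₁
    rwa [index_cubes_imaginary h₂ M.not_prim, mul_one] at h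
  · have h := (M.symm h₁ h₂).card_le h₂
    rwa [index_cubes_real h₁ w hw, mul_comm] at h

end Fermat.Agent.Cor.Scholz
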