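import Fermat.Agent.Corollaries.Scholz.Reflect

set_option autoImplicit false

/-!
# Mirror fields

`ℚ(√d)` and `ℚ(√-3d)`, `d ≠ 0` an integer such that neither `d` nor `-3d` is a square: the
conditions of `Mirror` hold for all embeddings (`mirror_of`), in both directions (`Mirror.symm`).
-/

namespace Fermat.Agent.Cor.Scholz

open IsDedekindDomain NumberField
open Fermat.Agent.Frob Fermat.Agent.FrobDensity Fermat.Agent.Minkowski
open Fermat.Agent.Cor.Diff (GK)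
open Fermat.Agent.Cor.CFTP

lemma ne_ratCast {K : Type*} [Field K] [CharZero K] {a : ℤ} (ha : ¬ IsSquare a) {x : K}
    (hx : x ^ 2 = (a : K)) (q : ℚ) : (q : K) ≠ x := by
  intro h
  apply ha
  rw [← h] at hx
  have h1 : q ^ 2 = (a : ℚ) := by exact_mod_cast hx
  rw [← Rat.isSquare_intCast_iff]
  exact ⟨q, by rw [← h1, sq]⟩

/-- A quadratic field is generated by any `x ∉ ℚ`. -/
theorem adjoin_eq_top {K : Type*} [Field K] [NumberField K] (h2 : Module.finrank ℚ K = 2) {x : K}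
    (hx : ∀ q : ℚ, (q : K) ≠ x) : Algebra.adjoin ℚ {x} = ⊤ := by
  have h1 : Module.finrank ℚ (IntermediateField.adjoin ℚ {x}) ∣ 2 :=
    ⟨_, (h2 ▸ Module.finrank_mul_finrank ℚ (IntermediateField.adjoin ℚ {x}) K).symm⟩
  have htop : IntermediateField.adjoin ℚ {x} = ⊤ := by
    rcases (Nat.dvd_prime Nat.prime_two).mp h1 with h | h
    · exfalso
      have h3 := IntermediateField.finrank_eq_one_iff.mp h
      have h4 : x ∈ (⊥ : IntermediateField ℚ K) :=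
        h3 ▸ IntermediateField.mem_adjoin_simple_self ℚ x
      obtain ⟨q, hq⟩ := IntermediateField.mem_bot.mp h4
      exact hx q (by rw [← hq]; exact (eq_ratCast _ q).symm)
    · exact IntermediateField.eq_of_le_of_finrank_eq le_top
        (by rw [h, IntermediateField.finrank_top', h2])
  rw [← IntermediateField.adjoin_simple_toSubalgebra_of_isAlgebraic
    (Algebra.IsAlgebraic.isAlgebraic x), htop, IntermediateField.top_toSubalgebra]

/-- `G_K` for a quadratic field `K ∋ x ∉ ℚ`. -/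
theorem mem_GK_iff {K : Type*} [Field K] [NumberField K] (h2 : Module.finrank ℚ K = 2) {x : K}
    (hx : ∀ q : ℚ, (q : K) ≠ x) (i : K →+* AlgebraicClosure ℚ) (g : GQ) :
    g ∈ GK i ↔ g (i x) = i x := by
  refine ⟨fun h => h x, fun hg y => ?_⟩
  have h3 : ((g : AlgebraicClosure ℚ →ₐ[ℚ] AlgebraicClosure ℚ).comp i.toRatAlgHom) =
      i.toRatAlgHom := by
    apply AlgHom.ext_of_adjoin_eq_top (adjoin_eq_top h2 hx)
    rintro _ ⟨⟩
    exact hg
  exact AlgHom.congr_fun h3 y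

/-- `√b` does not determine `√a` if `a b < 0`. -/
theorem exists_ne {K₁ K₂ : Type*} [Field K₁] [NumberField K₁] [Field K₂] [NumberField K₂]
    (h₁ : Module.finrank ℚ K₁ = 2) (h₂ : Module.finrank ℚ K₂ = 2)
    {i₁ : K₁ →+* AlgebraicClosure ℚ} {i₂ : K₂ →+* AlgebraicClosure ℚ}
    {r₁ r₂ : AlgebraicClosure ℚ} {a b : ℤ} (hr₁ : r₁ ^ 2 = (a : AlgebraicClosure ℚ))
    (hr₂ : r₂ ^ 2 = (b : AlgebraicClosure ℚ)) (hab : a * b < 0)
    (mem₁ : ∀ g : GQ, g ∈ GK i₁ ↔ g r₁ = r₁) (mem₂ : ∀ g : GQ, g ∈ GK i₂ ↔ g r₂ = r₂) :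
    ∃ g : GQ, g r₂ = r₂ ∧ g r₁ ≠ r₁ := by
  by_contra hcon
  push Not at hcon
  have hle : GK i₂ ≤ GK i₁ := fun g hg => (mem₁ g).mpr (hcon g ((mem₂ g).mp hg))
  have hle' : GK i₁ ≤ GK i₂ := by
    have h := Subgroup.relIndex_mul_index hle
    rw [index_GK h₁ i₁, index_GK h₂ i₂] at h
    exact Subgroup.relIndex_eq_one.mp (by omega)
  have hsq₁ : ∀ g : GQ, g r₁ = r₁ ∨ g r₁ = -r₁ := fun g => by
    apply sq_eq_sq_iff_eq_or_eq_neg.mp
    rw [← map_pow, hr₁, map_intCast]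
  have hsq₂ : ∀ g : GQ, g r₂ = r₂ ∨ g r₂ = -r₂ := fun g => by
    apply sq_eq_sq_iff_eq_or_eq_neg.mp
    rw [← map_pow, hr₂, map_intCast]
  obtain ⟨q, hq⟩ := ConvKum.mem_range_of_fixed (algebraMap ℚ (AlgebraicClosure ℚ))
    (x := r₁ * r₂) (fun g => by
      rw [map_mul]
      rcases hsq₁ g.1 with h | h
      · rw [h, (mem₂ g.1).mp (hle' ((mem₁ g.1).mpr h))]
      · rcases hsq₂ g.1 with h' | h'
        · have h3 := hcon g.1 h'
          rw [h'] at *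
          rw [h3]
        · rw [h, h', neg_mul_neg])
  have h3 : q ^ 2 = ((a * b : ℤ) : ℚ) := by
    apply (algebraMap ℚ (AlgebraicClosure ℚ)).injective
    rw [map_pow, hq, mul_pow, hr₁, hr₂, map_intCast, Int.cast_mul]
  have h4 : ((a * b : ℤ) : ℚ) < 0 := by exact_mod_cast hab
  rw [← h3] at h4
  exact absurd (sq_nonneg q) (not_le.mpr h4)

/-- The two mirror fields. -/
theorem mirror_of {K₁ K₂ : Type} [Field K₁] [NumberField K₁] [Field K₂] [NumberField K₂]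
    (h₁ : Module.finrank ℚ K₁ = 2) (h₂ : Module.finrank ℚ K₂ = 2) {d : ℤ} (hd : d ≠ 0)
    (hsq : ¬ IsSquare d) (hsq' : ¬ IsSquare (-3 * d)) {x₁ : K₁} (hx₁ : x₁ ^ 2 = (d : K₁)) {x₂ : K₂}
    (hx₂ : x₂ ^ 2 = -3 * (d : K₂)) (i₁ : K₁ →+* AlgebraicClosure ℚ)
    (i₂ : K₂ →+* AlgebraicClosure ℚ) : Mirror i₁ i₂ (i₁ x₁) (i₂ x₂) d := by
  have hx₂' : x₂ ^ 2 = ((-3 * d : ℤ) : K₂) := by
    rw [hx₂]
    push_cast
    rfl
  have mem₁ := mem_GK_iff h₁ (ne_ratCast hsq hx₁) i₁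
  have mem₂ := mem_GK_iff h₂ (ne_ratCast hsq' hx₂') i₂
  have hr₁ : i₁ x₁ ^ 2 = (d : AlgebraicClosure ℚ) := by rw [← map_pow, hx₁, map_intCast]
  have hr₂ : i₂ x₂ ^ 2 = ((-3 * d : ℤ) : AlgebraicClosure ℚ) := by
    rw [← map_pow, hx₂', map_intCast]
  refine ⟨hd, hr₁, ?_, mem₁, mem₂, exists_ne h₁ h₂ hr₁ hr₂ ?_ mem₁ mem₂⟩
  · rw [hr₂]
    push_cast
    rfl
  · have : 0 < d ^ 2 := by positivity
    nlinarith

/-- The roles of the two fields can be exchanged. -/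
theorem Mirror.symm {K₁ K₂ : Type} [Field K₁] [NumberField K₁] [Field K₂] [NumberField K₂]
    (h₁ : Module.finrank ℚ K₁ = 2) (h₂ : Module.finrank ℚ K₂ = 2)
    {i₁ : K₁ →+* AlgebraicClosure ℚ} {i₂ : K₂ →+* AlgebraicClosure ℚ}
    {r₁ r₂ : AlgebraicClosure ℚ} {d : ℤ} (M : Mirror i₁ i₂ r₁ r₂ d) :
    Mirror i₂ i₁ r₂ (3 * r₁) (-3 * d) := by
  have h3 : (3 : AlgebraicClosure ℚ) ≠ 0 := by norm_num
  have hmem : ∀ g : GQ, g (3 * r₁) = 3 * r₁ ↔ g r₁ = r₁ := fun g => by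
    rw [map_mul, map_ofNat, mul_right_inj' h3]
  refine ⟨mul_ne_zero (by norm_num) M.hd, by rw [M.sq₂]; push_cast; rfl, ?_, M.mem₂,
    fun g => by rw [M.mem₁, hmem], ?_⟩
  · rw [mul_pow, M.sq₁]
    push_cast
    ring
  · have hd2 : 0 < d ^ 2 := by
      have := M.hd
      positivity
    obtain ⟨g, hg₁, hg₂⟩ := exists_ne h₂ h₁ (i₁ := i₂) (i₂ := i₁) (r₁ := r₂) (r₂ := r₁)
      (a := -3 * d) (b := d) (by rw [M.sq₂]; push_cast; rfl) M.sq₁ (by nlinarith) M.mem₂ M.mem₁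
    exact ⟨g, (hmem g).mpr hg₁, hg₂⟩

/-- The field `k₂` contains no primitive third root of unity. -/
theorem Mirror.not_prim {K₁ K₂ : Type} [Field K₁] [NumberField K₁] [Field K₂] [NumberField K₂]
    {i₁ : K₁ →+* AlgebraicClosure ℚ} {i₂ : K₂ →+* AlgebraicClosure ℚ}
    {r₁ r₂ : AlgebraicClosure ℚ} {d : ℤ} (M : Mirror i₁ i₂ r₁ r₂ d) (z : K₂) :
    ¬ IsPrimitiveRoot z 3 := by
  intro hz
  obtain ⟨g, hg₂, hg₁⟩ := M.ne
  have hg : g ∈ GK i₂ := (M.mem₂ g).mpr hg₂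
  obtain ⟨k, -, hk⟩ := (hz.map_of_injective i₂.injective).eq_pow_of_pow_eq_one
    M.om_prim.pow_eq_one
  have h1 : g (om r₁ r₂) = om r₁ r₂ := by
    rw [← hk, map_pow, hg]
  have h2 := M.map_om_of_neg ((M.map_r₁ g).resolve_left hg₁) hg₂
  rw [h1] at h2
  have h3 : om r₁ r₂ ≠ 0 := M.om_prim.ne_zero (by norm_num)
  have h4 : om r₁ r₂ = 1 := by
    rw [sq] at h2
    exact (mul_right_cancel₀ h3 ((one_mul _).trans h2)).symm
  exact M.om_prim.ne_one (by norm_num) h4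

end Fermat.Agent.Cor.Scholz
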