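import Fermat.Agent.Corollaries.Scholz.Cube

set_option autoImplicit false

/-!
# The radical of an unramified character of the mirror field

`k₁ ∋ r₁ = √d`, `k₂ ∋ r₂ = √(-3d)`, both quadratic (`Mirror`). An unramified character
`ψ : G_{k₁} → ℤ/3` with `ψ^s = ψ⁻¹` for `s ∉ G_{k₁}` has, over `k₁ k₂ ∋ ω`, a Kummer generator `β`
with `β³ ∈ k₂`, all of whose orders at the places of `k₂` are divisible by `3` (`exists_radical`).
-/

namespace Fermat.Agent.Cor.Scholz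

open IsDedekindDomain NumberField
open Fermat.Agent.Frob Fermat.Agent.FrobDensity Fermat.Agent.Minkowski
open Fermat.Agent.LT.Tower.Fr
open Fermat.Agent.Cor.Diff (GK FrobAt Rt)
open Fermat.Agent.Cor.CFTP
open Fermat.Agent.CFT.SUnits (ord)

open Fermat.Agent.CFT.Kum Fermat.Agent.CFT.Bridge Fermat.Agent.PT in
/-- **Kummer theory** with exact values. -/
theorem exists_kummer_val {K : Type*} [Field K] [NumberField K] {p : ℕ} [hp : Fact p.Prime]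
    {ζ : K} (hζ : IsPrimitiveRoot ζ p) (i : K →+* AlgebraicClosure ℚ)
    (ψ : GK i →* C p) (hψ : Lev ψ) : ∃ α : AlgebraicClosure ℚ, α ≠ 0 ∧
      ∀ g : GK i, g.1 α = i ζ ^ (ψ g).toAdd.val * α := by
  have hζ' : IsPrimitiveRoot (i ζ) p := hζ.map_of_injective i.injective
  have hz0 : i ζ ≠ 0 := hζ'.ne_zero hp.out.ne_zero
  set z : (AlgebraicClosure ℚ)ˣ := Units.mk0 (i ζ) hz0 with hz
  have hzp : z ^ p = 1 := Units.ext (by
    rw [Units.val_pow_eq_pow_val, hz, Units.val_mk0, hζ'.pow_eq_one, Units.val_one])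
  have hfix : ∀ g : GK i, uact g z = z := fun g => Units.ext (g.2 ζ)
  obtain ⟨L, hL, hLψ⟩ := hψ
  have hlev : L.fixingSubgroup.comap (GK i).subtype ∈ (galLevels ℚ (AlgebraicClosure ℚ)).restrict
      (GK i) := LevelSys.comap_mem_comap _ (fixingSubgroup_mem_galLevels L)
  obtain ⟨m, hm⟩ := hilbert90 ((fieldLevel_galLevels ℚ (AlgebraicClosure ℚ)).restrict (GK i))
    (fun g => z ^ (ψ g).toAdd.val)
    ⟨_, hlev, fun g s hs => by
      have h1 : ψ s = 1 := hLψ s fun x hx =>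
        (IntermediateField.mem_fixingSubgroup_iff L _).mp hs x hx
      show z ^ (ψ (g * s)).toAdd.val = z ^ (ψ g).toAdd.val
      rw [map_mul, h1, mul_one]⟩
    (fun u v => by
      rw [map_mul, map_pow, hfix, ConvKum.pow_val_add hzp, mul_comm])
  refine ⟨m, m.ne_zero, fun g => ?_⟩
  have h1 : g.1 (m : AlgebraicClosure ℚ) =
      (z ^ (ψ g).toAdd.val : (AlgebraicClosure ℚ)ˣ) * m := by
    rw [hm g, ← Units.val_mul, div_mul_cancel]
    rfl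
  rw [h1, Units.val_pow_eq_pow_val, hz, Units.val_mk0]

/-- The fields `k₁ ∋ r₁ = √d`, `k₂ ∋ r₂ = √(-3d)`, in `ℚ̄`. -/
structure Mirror {K₁ K₂ : Type} [Field K₁] [Field K₂] (i₁ : K₁ →+* AlgebraicClosure ℚ)
    (i₂ : K₂ →+* AlgebraicClosure ℚ) (r₁ r₂ : AlgebraicClosure ℚ) (d : ℤ) : Prop where
  hd : d ≠ 0
  sq₁ : r₁ ^ 2 = (d : AlgebraicClosure ℚ)
  sq₂ : r₂ ^ 2 = -3 * (d : AlgebraicClosure ℚ)
  mem₁ : ∀ g : GQ, g ∈ GK i₁ ↔ g r₁ = r₁
  mem₂ : ∀ g : GQ, g ∈ GK i₂ ↔ g r₂ = r₂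
  ne : ∃ g : GQ, g r₂ = r₂ ∧ g r₁ ≠ r₁

lemma two_mul_val_neg : ∀ x : ZMod 3, 2 * (-x).val % 3 = x.val % 3 := by decide

/-- the cube root of unity -/
noncomputable def om (r₁ r₂ : AlgebraicClosure ℚ) : AlgebraicClosure ℚ := (r₂ / r₁ - 1) / 2

namespace Mirror

variable {K₁ K₂ : Type} [Field K₁] [NumberField K₁] [Field K₂] [NumberField K₂]
  {i₁ : K₁ →+* AlgebraicClosure ℚ} {i₂ : K₂ →+* AlgebraicClosure ℚ}
  {r₁ r₂ : AlgebraicClosure ℚ} {d : ℤ} (M : Mirror i₁ i₂ r₁ r₂ d)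

include M

omit [NumberField K₁] [NumberField K₂] in
lemma r₁_ne : r₁ ≠ 0 := by
  intro h
  have h1 := M.sq₁
  rw [h, zero_pow two_ne_zero] at h1
  exact M.hd (by exact_mod_cast h1.symm)

omit [NumberField K₁] [NumberField K₂] in
lemma quad : om r₁ r₂ ^ 2 + om r₁ r₂ + 1 = 0 := by
  have hd : (d : AlgebraicClosure ℚ) ≠ 0 := by exact_mod_cast M.hd
  have h1 : (r₂ / r₁) ^ 2 = -3 := by
    rw [div_pow, M.sq₁, M.sq₂, mul_div_cancel_right₀ _ hd]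
  have h2 : om r₁ r₂ ^ 2 + om r₁ r₂ + 1 = ((r₂ / r₁) ^ 2 + 3) / 4 := by
    rw [om]
    ring
  rw [h2, h1]
  ring

omit [NumberField K₁] [NumberField K₂] in
lemma om_prim : IsPrimitiveRoot (om r₁ r₂) 3 := by
  have h1 := M.quad
  have h2 : om r₁ r₂ ^ 3 = 1 := by linear_combination (om r₁ r₂ - 1) * h1
  have h3 : om r₁ r₂ ≠ 1 := by
    intro h
    rw [h] at h1
    norm_num at h1
  have h4 := IsPrimitiveRoot.orderOf (om r₁ r₂)
  have : Fact (Nat.Prime 3) := ⟨Nat.prime_three⟩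
  rwa [orderOf_eq_prime h2 h3] at h4

omit [NumberField K₁] [NumberField K₂] in
lemma map_r₁ (g : GQ) : g r₁ = r₁ ∨ g r₁ = -r₁ := by
  apply sq_eq_sq_iff_eq_or_eq_neg.mp
  rw [← map_pow, M.sq₁, map_intCast]

omit [NumberField K₁] [NumberField K₂] M in
lemma map_om_of_fix {g : GQ} (h1 : g r₁ = r₁) (h2 : g r₂ = r₂) : g (om r₁ r₂) = om r₁ r₂ := by
  rw [om, map_div₀, map_sub, map_div₀, h1, h2, map_one, map_ofNat]

omit [NumberField K₁] [NumberField K₂] in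
lemma map_om_of_neg {g : GQ} (h1 : g r₁ = -r₁) (h2 : g r₂ = r₂) :
    g (om r₁ r₂) = om r₁ r₂ ^ 2 := by
  have h3 : g (om r₁ r₂) = -1 - om r₁ r₂ := by
    rw [om, map_div₀, map_sub, map_div₀, h1, h2, map_one, map_ofNat]
    ring
  rw [h3]
  linear_combination -M.quad

/-- **The radical**: an unramified `ψ : G_{k₁} → ℤ/3` with `ψ(s g s⁻¹) = ψ(g)⁻¹` for `s ∉ G_{k₁}`
is given by a cube root of an element of `k₂` whose orders are divisible by `3`. -/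
theorem exists_radical {ψ : GK i₁ →* C 3} (lψ : Lev ψ)
    (hu : ∀ v A, Over i₁ A v → ∀ g : GK i₁, g.1 ∈ A.inertiaSubgroupIn ℚ → ψ g = 1)
    (hconj : ∀ s : GQ, s ∉ GK i₁ → ∀ (g : GK i₁) (h : s * g.1 * s⁻¹ ∈ GK i₁),
      ψ ⟨s * g.1 * s⁻¹, h⟩ = (ψ g)⁻¹) :
    ∃ (b : K₂ˣ) (β : AlgebraicClosure ℚ), β ≠ 0 ∧ β ^ 3 = i₂ b ∧
      (∀ (g : GQ) (h₁ : g ∈ GK i₁), g ∈ GK i₂ →
        g β = (om r₁ r₂ ^ (ψ ⟨g, h₁⟩).toAdd.val) ^ 2 * β) ∧
      ∀ w : HeightOneSpectrum (𝓞 K₂), (3 : ℤ) ∣ ord w b := by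
  have h3 : Fact (Nat.Prime 3) := ⟨Nat.prime_three⟩
  obtain ⟨s, hs₂, hs₁⟩ := M.ne
  have hs₁' : s r₁ = -r₁ := (M.map_r₁ s).resolve_left hs₁
  have hom3 := M.om_prim.pow_eq_one
  -- the field `L = k₁ k₂`
  have hdK : (d : K₂) ≠ 0 := by exact_mod_cast M.hd
  let α₀ : Rt i₂ := ⟨r₁, Units.mk0 (d : K₂) hdK, by rw [M.sq₁, Units.val_mk0, map_intCast]⟩
  have hlev : Lev α₀.sgn := by
    refine ⟨IntermediateField.adjoin ℚ {r₁}, ?_, fun g hg => ?_⟩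
    · exact IntermediateField.adjoin.finiteDimensional (Algebra.IsIntegral.isIntegral r₁)
    · rw [α₀.sgn_eq_one_iff]
      exact hg r₁ (IntermediateField.mem_adjoin_simple_self ℚ r₁)
  have hsurj : Function.Surjective α₀.sgn := by
    intro u
    rcases Int.units_eq_one_or u with rfl | rfl
    · exact ⟨1, map_one _⟩
    · refine ⟨⟨s, (M.mem₂ s).mpr hs₂⟩, (Int.units_eq_one_or _).resolve_left fun h => ?_⟩
      rw [α₀.sgn_eq_one_iff] at h
      exact hs₁ h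
  obtain ⟨L, _, _, _, hgal, j, e, hj, he⟩ := exists_field_of_surjective i₂ α₀.sgn hlev hsurj
  have hjx : ∀ x : K₂, j (algebraMap K₂ L x) = i₂ x := fun x => RingHom.congr_fun hj x
  have hGK : ∀ g : GQ, g ∈ GK j ↔ g r₁ = r₁ ∧ g r₂ = r₂ := by
    intro g
    constructor
    · intro hg
      have hg₂ : g ∈ GK i₂ := fun x => by rw [← hjx]; exact hg _
      refine ⟨?_, (M.mem₂ g).mp hg₂⟩
      have h1 : e.symm (α₀.sgn ⟨g, hg₂⟩) = 1 := by
        ext x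
        apply j.injective
        rw [he]
        exact hg x
      have h2 := congrArg e h1
      rw [MulEquiv.apply_symm_apply, map_one] at h2
      exact (α₀.sgn_eq_one_iff _).mp h2
    · rintro ⟨hg₁, hg₂⟩ x
      have hg₂' : g ∈ GK i₂ := (M.mem₂ g).mpr hg₂
      have h1 : α₀.sgn ⟨g, hg₂'⟩ = 1 := (α₀.sgn_eq_one_iff _).mpr hg₁
      have h2 := he ⟨g, hg₂'⟩ x
      rw [h1, map_one] at h2
      exact h2.symm
  have hdeg : Module.finrank K₂ L = 2 := by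
    rw [← IsGalois.card_aut_eq_finrank, Nat.card_congr e.toEquiv]
    simp
  have hle : GK j ≤ GK i₁ := fun g hg => (M.mem₁ g).mpr ((hGK g).mp hg).1
  obtain ⟨ζ, hζ⟩ := ConvKum.mem_range_of_fixed j (x := om r₁ r₂) (fun g =>
    map_om_of_fix ((hGK g.1).mp g.2).1 ((hGK g.1).mp g.2).2)
  have hζ3 : IsPrimitiveRoot ζ 3 := IsPrimitiveRoot.of_map_of_injective (f := j)
    (by rw [hζ]; exact M.om_prim) j.injective
  let ψL : GK j →* C 3 := ψ.comp (Subgroup.inclusion hle)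
  have hψL : ∀ g : GK j, ψL g = ψ ⟨g.1, hle g.2⟩ := fun g => rfl
  have lψL : Lev ψL := by
    obtain ⟨L₀, hL₀, h⟩ := lψ
    exact ⟨L₀, hL₀, fun g hg => h _ hg⟩
  obtain ⟨α, hα0, hα⟩ := exists_kummer_val hζ3 j ψL lψL
  rw [hζ] at hα
  have hsα0 : s α ≠ 0 := (map_ne_zero_iff s s.injective).mpr hα0
  -- the action of `G_L` on `s α`
  have hsα : ∀ g : GK j, g.1 (s α) = om r₁ r₂ ^ (ψL g).toAdd.val * s α := by
    intro g
    have hgr := (hGK g.1).mp g.2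
    have hmem : s⁻¹ * g.1 * s ∈ GK j := by
      rw [hGK]
      constructor
      · change s⁻¹ (g.1 (s r₁)) = r₁
        rw [hs₁', map_neg, hgr.1, ← hs₁']
        exact s.symm_apply_apply r₁
      · change s⁻¹ (g.1 (s r₂)) = r₂
        rw [hs₂, hgr.2]
        conv_lhs => rw [← hs₂]
        exact s.symm_apply_apply r₂
    have h1 := hα ⟨s⁻¹ * g.1 * s, hmem⟩
    have h2 : g.1 (s α) = s ((s⁻¹ * g.1 * s) α) := by
      change _ = s (s⁻¹ (g.1 (s α)))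
      exact (s.apply_symm_apply _).symm
    rw [h2, h1, map_mul, map_pow, M.map_om_of_neg hs₁' hs₂]
    have hsn : s⁻¹ ∉ GK i₁ := by
      intro h
      have h3 := (M.mem₁ _).mp h
      apply hs₁
      have h4 : s (s⁻¹ r₁) = r₁ := s.apply_symm_apply r₁
      rw [h3] at h4
      exact h4
    have hmem' : s⁻¹ * g.1 * s⁻¹⁻¹ ∈ GK i₁ := by
      rw [inv_inv]
      exact hle hmem
    have h3 : ψL ⟨s⁻¹ * g.1 * s, hmem⟩ = (ψL g)⁻¹ := by
      have h4 := hconj s⁻¹ hsn ⟨g.1, hle g.2⟩ hmem'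
      rw [hψL, hψL, ← h4]
      congr 1
    rw [h3, toAdd_inv]
    congr 1
    rw [← pow_mul, pow_eq_pow_mod _ hom3, pow_eq_pow_mod ((ψL g).toAdd.val) hom3]
    congr 1
    exact two_mul_val_neg _
  set β := α * s α with hβ
  have hβ0 : β ≠ 0 := mul_ne_zero hα0 hsα0
  have hgβ : ∀ g : GK j, g.1 β = (om r₁ r₂ ^ (ψL g).toAdd.val) ^ 2 * β := by
    intro g
    rw [hβ, map_mul, hα, hsα]
    ring
  -- `β³` is in `k₂`
  have hβ3 : ∀ g : GK j, g.1 (β ^ 3) = β ^ 3 := by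
    intro g
    have h1 : ((om r₁ r₂ ^ (ψL g).toAdd.val) ^ 2) ^ 3 = 1 := by
      calc ((om r₁ r₂ ^ (ψL g).toAdd.val) ^ 2) ^ 3 = ((om r₁ r₂ ^ 3) ^ (ψL g).toAdd.val) ^ 2 := by
            ring
        _ = 1 := by rw [hom3, one_pow, one_pow]
    rw [map_pow, hgβ, mul_pow, h1, one_mul]
  have hss : s * s ∈ GK j := by
    rw [hGK]
    constructor
    · change s (s r₁) = r₁
      rw [hs₁', map_neg, hs₁', neg_neg]
    · change s (s r₂) = r₂
      rw [hs₂, hs₂]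
  have hsβ : s (β ^ 3) = β ^ 3 := by
    have h1 : s β = om r₁ r₂ ^ (ψL ⟨s * s, hss⟩).toAdd.val * β := by
      have h2 : s (s α) = om r₁ r₂ ^ (ψL ⟨s * s, hss⟩).toAdd.val * α := hα ⟨s * s, hss⟩
      rw [hβ, map_mul, h2]
      ring
    rw [map_pow, h1, mul_pow, ← pow_mul, mul_comm _ 3, pow_mul, hom3, one_pow, one_mul]
  obtain ⟨b, hb⟩ := ConvKum.mem_range_of_fixed i₂ (x := β ^ 3) (fun g => by
    rcases M.map_r₁ g.1 with h | h
    · exact hβ3 ⟨g.1, (hGK g.1).mpr ⟨h, (M.mem₂ g.1).mp g.2⟩⟩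
    · have hmem : s⁻¹ * g.1 ∈ GK j := by
        rw [hGK]
        constructor
        · change s⁻¹ (g.1 r₁) = r₁
          rw [h, ← hs₁']
          exact s.symm_apply_apply r₁
        · change s⁻¹ (g.1 r₂) = r₂
          rw [(M.mem₂ g.1).mp g.2]
          conv_lhs => rw [← hs₂]
          exact s.symm_apply_apply r₂
      have h1 : g.1 (β ^ 3) = s ((s⁻¹ * g.1) (β ^ 3)) := (s.apply_symm_apply _).symm
      rw [h1, hβ3 ⟨_, hmem⟩, hsβ])
  have hb0 : b ≠ 0 := by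
    rintro rfl
    rw [map_zero] at hb
    exact pow_ne_zero 3 hβ0 hb.symm
  refine ⟨Units.mk0 b hb0, β, hβ0, hb.symm, fun g h₁ h₂ => ?_, fun w => ?_⟩
  · exact hgβ ⟨g, (hGK g).mpr ⟨(M.mem₁ g).mp h₁, (M.mem₂ g).mp h₂⟩⟩
  · refine dvd_ord_of_unramified (p := 3) (by norm_num) hdeg hζ3 (j := j) (b := Units.mk0 b hb0)
      (β := β) (by rw [hjx]; exact hb.symm) (fun V A hV g hg => ?_) w
    obtain ⟨q, hq, hqV⟩ := exists_prime_mem V
    obtain ⟨v, hv⟩ := exists_over_of_liesOver i₁ hq (hV.natCast_mem_iff.mp hqV)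
    have h1 : ψL g = 1 := hu v A hv ⟨g.1, hle g.2⟩ hg
    rw [hgβ, h1, toAdd_one, ZMod.val_zero, pow_zero, one_pow, one_mul]

end Mirror

end Fermat.Agent.Cor.Scholz
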