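import Fermat.Agent.Corollaries.Scholz.Main

set_option autoImplicit false

/-!
# The reflection theorem in terms of `3`-ranks

`scholz_rank`: `#Cl(k₁)[3] = 3^r`, `#Cl(k₂)[3] = 3^s` with `r ≤ s ≤ r + 1`. Corollary
(`dvd_classNumber_mirror`): `3 ∣ h(ℚ(√d))` implies `3 ∣ h(ℚ(√-3d))`.
-/

namespace Fermat.Agent.Cor.Scholz

open NumberField

/-- The number of `c` with `c ^ p = 1` in a finite abelian group is a power of `p`. -/
theorem exists_rank {G : Type*} [CommGroup G] [Finite G] {p : ℕ} (hp : p.Prime) :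
    ∃ r : ℕ, Nat.card {c : G // c ^ p = 1} = p ^ r := by
  have : Fact p.Prime := ⟨hp⟩
  have h1 : IsPGroup p (powMonoidHom p : G →* G).ker := by
    intro g
    refine ⟨1, ?_⟩
    rw [pow_one]
    exact Subtype.ext g.2
  obtain ⟨r, hr⟩ := IsPGroup.iff_card.mp h1
  exact ⟨r, hr⟩

/-- `p` divides the order if and only if there is more than one `c` with `c ^ p = 1`. -/
theorem dvd_card_iff {G : Type*} [CommGroup G] [Finite G] {p : ℕ} (hp : p.Prime) :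
    p ∣ Nat.card G ↔ 1 < Nat.card {c : G // c ^ p = 1} := by
  have : Fact p.Prime := ⟨hp⟩
  constructor
  · intro h
    obtain ⟨g, hg⟩ := exists_prime_orderOf_dvd_card' (G := G) p h
    rw [Finite.one_lt_card_iff_nontrivial]
    refine ⟨⟨1, one_pow p⟩, ⟨g, by rw [← hg, pow_orderOf_eq_one]⟩, fun h1 => ?_⟩
    have h2 : (1 : G) = g := congrArg Subtype.val h1
    rw [← h2, orderOf_one] at hg
    exact hp.one_lt.ne hg
  · intro h
    rw [Finite.one_lt_card_iff_nontrivial] at h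
    obtain ⟨⟨g, hg⟩, hne⟩ := _root_.exists_ne (⟨1, one_pow p⟩ : {c : G // c ^ p = 1})
    have hg1 : g ≠ 1 := fun h1 => hne (Subtype.ext h1)
    rw [← orderOf_eq_prime hg hg1]
    exact orderOf_dvd_natCard g

/-- **Scholz's reflection theorem** for the `3`-ranks of the class groups of `ℚ(√d)` and
`ℚ(√-3d)`: `r ≤ s ≤ r + 1`. -/
theorem scholz_rank {K₁ K₂ : Type} [Field K₁] [NumberField K₁] [Field K₂] [NumberField K₂]
    (h₁ : Module.finrank ℚ K₁ = 2) (h₂ : Module.finrank ℚ K₂ = 2) {d : ℤ} (hd : 0 < d)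
    (hsq : ¬ IsSquare d) {x₁ : K₁} (hx₁ : x₁ ^ 2 = (d : K₁)) {x₂ : K₂}
    (hx₂ : x₂ ^ 2 = -3 * (d : K₂)) :
    ∃ r s : ℕ, Nat.card {c : ClassGroup (𝓞 K₁) // c ^ 3 = 1} = 3 ^ r ∧
      Nat.card {c : ClassGroup (𝓞 K₂) // c ^ 3 = 1} = 3 ^ s ∧ r ≤ s ∧ s ≤ r + 1 := by
  obtain ⟨ha, hb⟩ := scholz h₁ h₂ hd hsq hx₁ hx₂
  obtain ⟨r, hr⟩ := exists_rank (G := ClassGroup (𝓞 K₁)) Nat.prime_three
  obtain ⟨s, hs⟩ := exists_rank (G := ClassGroup (𝓞 K₂)) Nat.prime_three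
  rw [hr, hs] at ha hb
  rw [← pow_succ'] at hb
  exact ⟨r, s, hr, hs, (Nat.pow_le_pow_iff_right (by norm_num)).mp ha,
    (Nat.pow_le_pow_iff_right (by norm_num)).mp hb⟩

/-- `3 ∣ h(ℚ(√d))` implies `3 ∣ h(ℚ(√-3d))`, `d > 0`. -/
theorem dvd_classNumber_mirror {K₁ K₂ : Type} [Field K₁] [NumberField K₁] [Field K₂]
    [NumberField K₂] (h₁ : Module.finrank ℚ K₁ = 2) (h₂ : Module.finrank ℚ K₂ = 2) {d : ℤ}
    (hd : 0 < d) (hsq : ¬ IsSquare d) {x₁ : K₁} (hx₁ : x₁ ^ 2 = (d : K₁)) {x₂ : K₂}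
    (hx₂ : x₂ ^ 2 = -3 * (d : K₂)) (h : 3 ∣ classNumber K₁) : 3 ∣ classNumber K₂ := by
  rw [classNumber, ← Nat.card_eq_fintype_card] at h ⊢
  rw [dvd_card_iff Nat.prime_three] at h ⊢
  exact h.trans_le (scholz h₁ h₂ hd hsq hx₁ hx₂).1

end Fermat.Agent.Cor.Scholz
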