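import Fermat.Agent.CFT.SClass

/-!
# The Selmer group `{b ∈ Kˣ | p ∣ ord_v b for all v}`

`card_sel_eq`: `[Sel : Kˣ^p] = #Cl(K)[p] · [E : E^p]`, `E` the units.
-/

set_option autoImplicit false

namespace Fermat.Agent.Cor.Scholz

open NumberField IsDedekindDomain Fermat.Agent.CFT Fermat.Agent.CFT.SUnits

variable {K : Type*} [Field K] [NumberField K]

/-- The elements of `Kˣ` whose divisor is divisible by `p`. -/
def Sel (p : ℕ) (K : Type*) [Field K] [NumberField K] : Subgroup Kˣ where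
  carrier := {b | ∀ v : HeightOneSpectrum (𝓞 K), (p : ℤ) ∣ ord v b}
  one_mem' v := by
    rw [ord_one]
    exact dvd_zero _
  mul_mem' ha hb v := by
    rw [ord_mul]
    exact dvd_add (ha v) (hb v)
  inv_mem' ha v := by
    rw [ord_inv]
    exact (ha v).neg_right

lemma mem_sel {p : ℕ} {b : Kˣ} : b ∈ Sel p K ↔ ∀ v : HeightOneSpectrum (𝓞 K), (p : ℤ) ∣ ord v b :=
  Iff.rfl

lemma sel_eq (p : ℕ) : Sel p K =
    selS (((∅ : Finset (HeightOneSpectrum (𝓞 K))) : Set (HeightOneSpectrum (𝓞 K)))) p := by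
  ext x
  rw [mem_sel]
  constructor
  · exact fun h v _ => h v
  · exact fun h v => h v (by simp)

/-- the units of `𝓞 K` are the `∅`-units -/
noncomputable def unitsEquiv : (𝓞 K)ˣ ≃*
    (((∅ : Finset (HeightOneSpectrum (𝓞 K))) : Set (HeightOneSpectrum (𝓞 K)))).unit K :=
  MulEquiv.ofBijective (unitsToSUnits ∅) ⟨unitsToSUnits_injective ∅, fun x => by
    have h1 : div (R := 𝓞 K) (x : Kˣ) = 0 := by
      ext v
      exact (mem_unit_iff ∅ _).mp x.2 v (Finset.notMem_empty v)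
    obtain ⟨u, hu⟩ := (div_eq_zero_iff K (R := 𝓞 K) _).mp h1
    exact ⟨u, Subtype.ext hu⟩⟩

lemma classSubgroup_empty : classSubgroup
    (((∅ : Finset (HeightOneSpectrum (𝓞 K))) : Set (HeightOneSpectrum (𝓞 K)))) = ⊥ := by
  rw [classSubgroup, Finset.coe_empty, Set.image_empty, Subgroup.closure_empty]

variable (K) in
/-- **`[Sel : Kˣ^p] = #Cl(K)[p] · [E : E^p]`.** -/
theorem card_sel_eq {p : ℕ} (hp : p ≠ 0) :
    ((powMonoidHom p : Kˣ →* Kˣ).range).relIndex (Sel p K) =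
      Nat.card {c : ClassGroup (𝓞 K) // c ^ p = 1} *
        ((powMonoidHom p : (𝓞 K)ˣ →* (𝓞 K)ˣ).range).index := by
  rw [sel_eq, relIndex_selS _ hp, ← AbCount.index_range_pow_congr unitsEquiv, mul_comm]
  congr 1
  have e : (ClassGroup (𝓞 K) ⧸ classSubgroup
      (((∅ : Finset (HeightOneSpectrum (𝓞 K))) : Set (HeightOneSpectrum (𝓞 K))))) ≃*
      ClassGroup (𝓞 K) :=
    (QuotientGroup.quotientMulEquivOfEq classSubgroup_empty).trans QuotientGroup.quotientBot
  rw [AbCount.card_ker_pow_congr e]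
  rfl

variable (K) in
theorem card_sel_le {p : ℕ} (hp : p.Prime) :
    ((powMonoidHom p : Kˣ →* Kˣ).range).relIndex (Sel p K) ≤
      Nat.card {c : ClassGroup (𝓞 K) // c ^ p = 1} *
        ((powMonoidHom p : (𝓞 K)ˣ →* (𝓞 K)ˣ).range).index :=
  (card_sel_eq K hp.ne_zero).le

variable (K) in
/-- the index is finite -/
theorem relIndex_sel_ne_zero {p : ℕ} (hp : p.Prime) :
    ((powMonoidHom p : Kˣ →* Kˣ).range).relIndex (Sel p K) ≠ 0 := by
  rw [card_sel_eq K hp.ne_zero]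
  refine mul_ne_zero ?_ ?_
  · have : Nonempty {c : ClassGroup (𝓞 K) // c ^ p = 1} := ⟨⟨1, one_pow p⟩⟩
    exact Nat.card_pos.ne'
  · rw [AbCount.index_range_pow_congr unitsEquiv]
    rw [index_pow_sunits _ hp.ne_zero]
    have : Nonempty (rootsOfUnity p K) := ⟨1⟩
    have : NeZero p := ⟨hp.ne_zero⟩
    exact mul_ne_zero (pow_ne_zero _ hp.ne_zero) Nat.card_pos.ne'

end Fermat.Agent.Cor.Scholz
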