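import Fermat.Agent.Corollaries.Scholz.Conj
import Fermat.Agent.Corollaries.Scholz.Radical
import Fermat.Agent.Corollaries.Scholz.Sel
import Fermat.Agent.Corollaries.Scholz.Hom
import Fermat.Agent.Corollaries.CFTP.Final
import Fermat.Agent.Corollaries.CFTP.FrobEx

set_option autoImplicit false

/-!
# The reflection inequality

`k₁ ∋ √d`, `k₂ ∋ √(-3d)` quadratic fields (`Mirror`): `#Cl(k₁)[3] ≤ #Cl(k₂)[3] · [E₂ : E₂³]`
(`Mirror.card_le`).
-/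

namespace Fermat.Agent.Cor.Scholz

open IsDedekindDomain NumberField
open Fermat.Agent.Frob Fermat.Agent.FrobDensity Fermat.Agent.Minkowski
open Fermat.Agent.LT.Tower.Fr
open Fermat.Agent.Cor.Diff (GK FrobAt Rt)
open Fermat.Agent.Cor.CFTP
open Fermat.Agent.CFT.SUnits (ord)

/-- The characters of order `3` of the class group are everywhere unramified characters of `G_k`. -/
theorem exists_hilbert {p : ℕ} [hp : Fact p.Prime] (hp2 : p ≠ 2) {K : Type} [Field K]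
    [NumberField K] (i : K →+* AlgebraicClosure ℚ) (χ : ClassGroup (𝓞 K) →* C p) :
    ∃ ψ : GK i →* C p, Lev ψ ∧
      (∀ v A, Over i A v → ∀ g : GK i, g.1 ∈ A.inertiaSubgroupIn ℚ → ψ g = 1) ∧
      ∀ v, ∀ g : GK i, FrobAt g v → ψ g = χ (cl v) := by
  obtain ⟨ψ, lψ, hu, hψ⟩ := artin_existence (Or.inl hp2) i (isRay_eta χ)
  exact ⟨ψ, lψ, fun v A => hu v (Finset.notMem_empty v) A, fun v g hg => hψ v
    (Finset.notMem_empty v) g hg⟩

lemma eq_of_sq_eq {x y : C 3} (h : x ^ 2 = y ^ 2) : x = y := by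
  have h3 : Fact (Nat.Prime 3) := ⟨Nat.prime_three⟩
  have hx : x = (x ^ 2) ^ 2 := by
    have := C.pow_p (p := 3) x
    calc x = x ^ 3 * x := by rw [this, one_mul]
      _ = (x ^ 2) ^ 2 := by rw [← pow_succ, ← pow_mul]
  have hy : y = (y ^ 2) ^ 2 := by
    have := C.pow_p (p := 3) y
    calc y = y ^ 3 * y := by rw [this, one_mul]
      _ = (y ^ 2) ^ 2 := by rw [← pow_succ, ← pow_mul]
  rw [hx, hy, h]

lemma eq_of_sq_eq' {F : Type*} [Field F] {x y : F} (hx : x ^ 3 = 1) (hy : y ^ 3 = 1)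
    (h : x ^ 2 = y ^ 2) : x = y := by
  calc x = x ^ 3 * x := by rw [hx, one_mul]
    _ = (x ^ 2) ^ 2 := by ring
    _ = (y ^ 2) ^ 2 := by rw [h]
    _ = y ^ 3 * y := by ring
    _ = y := by rw [hy, one_mul]

namespace Mirror

variable {K₁ K₂ : Type} [Field K₁] [NumberField K₁] [Field K₂] [NumberField K₂]
  {i₁ : K₁ →+* AlgebraicClosure ℚ} {i₂ : K₂ →+* AlgebraicClosure ℚ}
  {r₁ r₂ : AlgebraicClosure ℚ} {d : ℤ} (M : Mirror i₁ i₂ r₁ r₂ d)

include M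

omit [NumberField K₁] [NumberField K₂] in
lemma sq_mem (g : GQ) : g ^ 2 ∈ GK i₂ := by
  rw [M.mem₂]
  have h : g r₂ = r₂ ∨ g r₂ = -r₂ := by
    apply sq_eq_sq_iff_eq_or_eq_neg.mp
    rw [← map_pow, M.sq₂, map_mul, map_neg, map_ofNat, map_intCast]
  have e : (g ^ 2) r₂ = g (g r₂) := by rw [sq]; rfl
  rw [e]
  rcases h with h | h
  · rw [h, h]
  · rw [h, map_neg, h, neg_neg]

/-- Two characters with the same radical are equal. -/
theorem eq_of_radical {ψ ψ' : GK i₁ →* C 3} {b b' : K₂ˣ} {β β' : AlgebraicClosure ℚ}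
    (hβ0 : β ≠ 0) (hβ0' : β' ≠ 0) (hβ : β ^ 3 = i₂ b) (hβ' : β' ^ 3 = i₂ b')
    (h : ∀ (g : GQ) (h₁ : g ∈ GK i₁), g ∈ GK i₂ →
      g β = (om r₁ r₂ ^ (ψ ⟨g, h₁⟩).toAdd.val) ^ 2 * β)
    (h' : ∀ (g : GQ) (h₁ : g ∈ GK i₁), g ∈ GK i₂ →
      g β' = (om r₁ r₂ ^ (ψ' ⟨g, h₁⟩).toAdd.val) ^ 2 * β')
    {c : K₂ˣ} (hc : b = b' * c ^ 3) : ψ = ψ' := by
  have hom3 := M.om_prim.pow_eq_one
  have hc0 : i₂ c ≠ 0 := by
    rw [Ne, map_eq_zero]
    exact c.ne_zero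
  -- the ratio is a cube root of unity
  have h1 : (β / (β' * i₂ c)) ^ 3 = 1 := by
    rw [div_pow, mul_pow, hβ, hβ', hc, Units.val_mul, Units.val_pow_eq_pow_val, map_mul, map_pow,
      div_self]
    refine mul_ne_zero ?_ (pow_ne_zero _ hc0)
    rw [← hβ']
    exact pow_ne_zero _ hβ0'
  obtain ⟨m, -, hm⟩ := M.om_prim.eq_pow_of_pow_eq_one h1
  have hβeq : β = om r₁ r₂ ^ m * β' * i₂ c := by
    rw [hm]
    field_simp
  -- equality on `G_L`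
  have key : ∀ (g : GQ) (h₁ : g ∈ GK i₁), g ∈ GK i₂ → ψ ⟨g, h₁⟩ = ψ' ⟨g, h₁⟩ := by
    intro g h₁ h₂
    have hgom : g (om r₁ r₂) = om r₁ r₂ :=
      map_om_of_fix ((M.mem₁ g).mp h₁) ((M.mem₂ g).mp h₂)
    have h2 := h g h₁ h₂
    have h3 : g β = (om r₁ r₂ ^ (ψ' ⟨g, h₁⟩).toAdd.val) ^ 2 * β := by
      conv_lhs => rw [hβeq]
      rw [map_mul, map_mul, map_pow, hgom, h' g h₁ h₂, h₂ c]
      conv_rhs => rw [hβeq]
      ring
    rw [h2] at h3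
    have h4 := mul_right_cancel₀ hβ0 h3
    have h5 := eq_of_sq_eq' (by rw [← pow_mul, mul_comm, pow_mul, hom3, one_pow])
      (by rw [← pow_mul, mul_comm, pow_mul, hom3, one_pow]) h4
    have h6 := M.om_prim.pow_inj (ZMod.val_lt _) (ZMod.val_lt _) h5
    exact Multiplicative.toAdd.injective (ZMod.val_injective 3 h6)
  refine MonoidHom.ext fun g => ?_
  apply eq_of_sq_eq
  rw [← map_pow, ← map_pow]
  exact key (g.1 ^ 2) (pow_mem g.2 2) (M.sq_mem g.1)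

/-- **The reflection inequality.** -/
theorem card_le (h₁ : Module.finrank ℚ K₁ = 2) :
    Nat.card {c : ClassGroup (𝓞 K₁) // c ^ 3 = 1} ≤
      Nat.card {c : ClassGroup (𝓞 K₂) // c ^ 3 = 1} *
        ((powMonoidHom 3 : (𝓞 K₂)ˣ →* (𝓞 K₂)ˣ).range).index := by
  have h3 : Fact (Nat.Prime 3) := ⟨Nat.prime_three⟩
  rw [← card_hom 3]
  refine le_trans ?_ (card_sel_le K₂ Nat.prime_three)
  choose ψ lψ hu hψ using exists_hilbert (p := 3) (by norm_num) i₁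
  choose b β hβ0 hβ3 hg hord using fun χ => M.exists_radical (lψ χ) (hu χ)
    (fun s hs g hsg => conj_eq_inv h₁ (lψ χ) (hu χ) hs g hsg)
  let P := (powMonoidHom 3 : K₂ˣ →* K₂ˣ).range.subgroupOf (Sel 3 K₂)
  have hfin : Finite (Sel 3 K₂ ⧸ P) :=
    Nat.finite_of_card_ne_zero (relIndex_sel_ne_zero K₂ Nat.prime_three)
  refine Nat.card_le_card_of_injective
    (fun χ => (QuotientGroup.mk (⟨b χ, hord χ⟩ : Sel 3 K₂) : Sel 3 K₂ ⧸ P)) ?_
  intro χ χ' h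
  have h4 := QuotientGroup.eq.mp h
  obtain ⟨c, hc⟩ := h4
  have hc' : c ^ 3 = (b χ)⁻¹ * b χ' := hc
  have h5 : b χ' = b χ * c ^ 3 := by rw [hc', mul_inv_cancel_left]
  have h6 := M.eq_of_radical (hβ0 χ') (hβ0 χ) (hβ3 χ') (hβ3 χ) (hg χ') (hg χ) h5
  have h7 : χ * χ'⁻¹ = 1 := by
    refine eq_one_of_forall _ ∅ fun v _ => ?_
    obtain ⟨g, hg'⟩ := exists_frobAt_all i₁ v
    rw [MonoidHom.mul_apply, MonoidHom.inv_apply, ← hψ χ v g hg', ← hψ χ' v g hg', h6,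
      mul_inv_cancel]
  exact mul_inv_eq_one.mp h7

end Mirror

end Fermat.Agent.Cor.Scholz
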